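/-
S36lib / H / AlphaNormDvd  (helper1)

The analytic norm formula along `α` (the inclusion `FBar N ⊆ FBar (N ℓ)`) in the case `ℓ ∣ N`
(index `ℓ`, not `ℓ + 1`):
`toMer (ΦBar N e (Norm_α y)) = ∏ j : ZMod ℓ, (ΦBar (N ℓ) e y) ∘ (1 0; N j 1)`.
The matrices `(1 0; N j 1) ∈ Γ₀(N)` represent `Γ₀(N ℓ) \ Γ₀(N)`; `γ = (a b; c d) ∈ Γ₀(N)` permutes
them by the affine map `j ↦ a² j + a (c / N)` of `ℤ/ℓ`.
-/
import Mathlib
import Fermat.Agent.S29lib.H.AlphaNorm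

set_option autoImplicit false
set_option linter.style.haveILetI false
set_option linter.unusedSectionVars false

noncomputable section

namespace Fermat.Agent.S36lib.H

open UpperHalfPlane Polynomial Matrix.SpecialLinearGroup Fermat.Agent.ProgramR Module
  CongruenceSubgroup ModularForm ModularCurve
open Fermat.Agent.ProgramR.BarField Fermat.Agent.ProgramR.QExp Fermat.Agent.ProgramR.LevelOne
open Fermat.Agent.S29lib.H
open scoped MatrixGroups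

/-! ### Lower triangular matrices -/

/-- the lower triangular matrix `(1 0; m 1)` -/
def lowMat (m : ℤ) : SL(2, ℤ) := ⟨!![1, 0; m, 1], by simp [Matrix.det_fin_two_of]⟩

theorem coe_lowMat (m : ℤ) : (lowMat m : Matrix (Fin 2) (Fin 2) ℤ) = !![1, 0; m, 1] := rfl

theorem lowMat_apply_one_zero (m : ℤ) : lowMat m 1 0 = m := rfl

theorem lowMat_mul (m m' : ℤ) : lowMat m * lowMat m' = lowMat (m + m') := by
  apply Subtype.ext
  rw [Matrix.SpecialLinearGroup.coe_mul, coe_lowMat, coe_lowMat, coe_lowMat]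
  ext i j
  fin_cases i <;> fin_cases j <;> simp [Matrix.mul_apply, Fin.sum_univ_two, add_comm]

theorem lowMat_zero : lowMat 0 = 1 := by
  apply Subtype.ext
  rw [coe_lowMat, Matrix.SpecialLinearGroup.coe_one]
  ext i j
  fin_cases i <;> fin_cases j <;> simp

theorem lowMat_inv (m : ℤ) : (lowMat m)⁻¹ = lowMat (-m) := by
  apply inv_eq_of_mul_eq_one_right
  rw [lowMat_mul, add_neg_cancel, lowMat_zero]

/-- the lower left entry of `(1 0; m 1) g (1 0; m' 1)` -/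
theorem lowMat_mul_mul_apply_one_zero (m m' : ℤ) (g : SL(2, ℤ)) :
    (lowMat m * g * lowMat m') 1 0 = m * g 0 0 + g 1 0 + (m * g 0 1 + g 1 1) * m' := by
  simp only [Matrix.SpecialLinearGroup.coe_mul, coe_lowMat, Matrix.mul_apply, Fin.sum_univ_two,
    Matrix.of_apply, Matrix.cons_val', Matrix.cons_val_zero, Matrix.cons_val_one,
    Matrix.cons_val_fin_one]
  ring

theorem lowMat_mem_Gamma0 (N : ℕ) (j : ℤ) : lowMat ((N : ℤ) * j) ∈ Gamma0 N := by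
  rw [Gamma0_mem, lowMat_apply_one_zero]
  push_cast
  simp

variable {N ℓ : ℕ} [NeZero N] [NeZero ℓ]

/-- the representatives `(1 0; N j 1)`, `j ∈ ℤ/ℓ` -/
def lowRep (N : ℕ) (j : ZMod ℓ) : Gamma0 N :=
  ⟨lowMat ((N : ℤ) * (j.val : ℤ)), lowMat_mem_Gamma0 N _⟩

theorem coe_lowRep (j : ZMod ℓ) :
    ((lowRep N j : Gamma0 N) : SL(2, ℤ)) = lowMat ((N : ℤ) * (j.val : ℤ)) := rfl

/-! ### The permutation of `ℤ/ℓ` induced by `γ ∈ Γ₀(N)`, `ℓ ∣ N` -/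

/-- `c / N` for `γ = (a b; c d) ∈ Γ₀(N)` -/
def lowC (γ : Gamma0 N) : ℤ := (γ : SL(2, ℤ)) 1 0 / (N : ℤ)

theorem N_mul_lowC (γ : Gamma0 N) : (N : ℤ) * lowC γ = (γ : SL(2, ℤ)) 1 0 := by
  have h1 : (N : ℤ) ∣ (γ : SL(2, ℤ)) 1 0 :=
    (ZMod.intCast_zmod_eq_zero_iff_dvd _ _).mp (Gamma0_mem.mp γ.2)
  exact Int.mul_ediv_cancel' h1

theorem natCast_eq_zero_of_dvd (hℓN : ℓ ∣ N) : ((N : ℤ) : ZMod ℓ) = 0 := by
  rw [ZMod.intCast_zmod_eq_zero_iff_dvd]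
  exact_mod_cast hℓN

theorem natCast_eq_zero_of_dvd' (hℓN : ℓ ∣ N) : ((N : ℕ) : ZMod ℓ) = 0 :=
  (ZMod.natCast_eq_zero_iff N ℓ).2 hℓN

/-- `a d = 1` in `ℤ/ℓ` for `(a b; c d) ∈ Γ₀(N)`, `ℓ ∣ N` -/
theorem a_mul_d (hℓN : ℓ ∣ N) (γ : Gamma0 N) :
    (((γ : SL(2, ℤ)) 0 0 : ℤ) : ZMod ℓ) * (((γ : SL(2, ℤ)) 1 1 : ℤ) : ZMod ℓ) = 1 := by
  have hdet := (γ : SL(2, ℤ)).det_coe
  rw [Matrix.det_fin_two] at hdet
  have h2 := congrArg (Int.cast : ℤ → ZMod ℓ) hdet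
  push_cast at h2
  have h3 : (((γ : SL(2, ℤ)) 1 0 : ℤ) : ZMod ℓ) = 0 := by
    rw [← N_mul_lowC γ]
    push_cast
    rw [natCast_eq_zero_of_dvd' hℓN, zero_mul]
  rw [h3, mul_zero, sub_zero] at h2
  exact h2

/-- the permutation `j ↦ a² j + a (c / N)` -/
def lowPerm (hℓN : ℓ ∣ N) (γ : Gamma0 N) : Equiv.Perm (ZMod ℓ) where
  toFun j := (((γ : SL(2, ℤ)) 0 0 : ℤ) : ZMod ℓ) ^ 2 * j +
    (((γ : SL(2, ℤ)) 0 0 : ℤ) : ZMod ℓ) * ((lowC γ : ℤ) : ZMod ℓ)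
  invFun j := (((γ : SL(2, ℤ)) 1 1 : ℤ) : ZMod ℓ) ^ 2 *
    (j - (((γ : SL(2, ℤ)) 0 0 : ℤ) : ZMod ℓ) * ((lowC γ : ℤ) : ZMod ℓ))
  left_inv j := by
    have h := a_mul_d hℓN γ
    linear_combination ((((γ : SL(2, ℤ)) 0 0 : ℤ) : ZMod ℓ) * (((γ : SL(2, ℤ)) 1 1 : ℤ) : ZMod ℓ)
      * j + j) * h
  right_inv j := by
    have h := a_mul_d hℓN γ
    linear_combination ((((γ : SL(2, ℤ)) 0 0 : ℤ) : ZMod ℓ) * (((γ : SL(2, ℤ)) 1 1 : ℤ) : ZMod ℓ)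
      + 1) * (j - (((γ : SL(2, ℤ)) 0 0 : ℤ) : ZMod ℓ) * ((lowC γ : ℤ) : ZMod ℓ)) * h

theorem lowPerm_apply (hℓN : ℓ ∣ N) (γ : Gamma0 N) (j : ZMod ℓ) :
    lowPerm hℓN γ j = (((γ : SL(2, ℤ)) 0 0 : ℤ) : ZMod ℓ) ^ 2 * j +
      (((γ : SL(2, ℤ)) 0 0 : ℤ) : ZMod ℓ) * ((lowC γ : ℤ) : ZMod ℓ) := rfl

/-- the cocycle -/
def lowCoc (hℓN : ℓ ∣ N) (γ : Gamma0 N) (j : ZMod ℓ) : Gamma0 N :=
  lowRep N j * γ * (lowRep N (lowPerm hℓN γ j))⁻¹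

theorem lowCoc_mem (hℓN : ℓ ∣ N) (γ : Gamma0 N) (j : ZMod ℓ) :
    ((lowCoc hℓN γ j : Gamma0 N) : SL(2, ℤ)) ∈ Gamma0 (N * ℓ) := by
  rw [Gamma0_mem, ZMod.intCast_zmod_eq_zero_iff_dvd]
  have e : ((lowCoc hℓN γ j : Gamma0 N) : SL(2, ℤ)) =
      lowMat ((N : ℤ) * (j.val : ℤ)) * (γ : SL(2, ℤ)) *
        lowMat (-((N : ℤ) * ((lowPerm hℓN γ j).val : ℤ))) := by
    simp only [lowCoc, Subgroup.coe_mul, Subgroup.coe_inv, coe_lowRep, lowMat_inv]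
  rw [e, lowMat_mul_mul_apply_one_zero, ← N_mul_lowC γ]
  -- the entry is `N * t` with `ℓ ∣ t`
  set a : ℤ := (γ : SL(2, ℤ)) 0 0 with ha
  set b : ℤ := (γ : SL(2, ℤ)) 0 1 with hb
  set d : ℤ := (γ : SL(2, ℤ)) 1 1 with hd
  set j' : ZMod ℓ := lowPerm hℓN γ j with hj'
  have ht : (ℓ : ℤ) ∣ (j.val : ℤ) * a + lowC γ -
      ((N : ℤ) * (j.val : ℤ) * b + d) * (j'.val : ℤ) := by
    rw [← ZMod.intCast_zmod_eq_zero_iff_dvd]
    push_cast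
    rw [ZMod.natCast_zmod_val, ZMod.natCast_zmod_val, natCast_eq_zero_of_dvd' hℓN, hj',
      lowPerm_apply]
    have h := a_mul_d hℓN γ
    rw [← ha, ← hd] at h
    linear_combination (-(a : ZMod ℓ) * (j : ZMod ℓ) - ((lowC γ : ℤ) : ZMod ℓ)) * h
  obtain ⟨t, ht⟩ := ht
  refine ⟨t, ?_⟩
  push_cast
  linear_combination (N : ℤ) * ht

/-! ### The transversal and the norm formula -/

/-- the transversal `(1 0; N j 1)`, `j ∈ ℤ/ℓ`, for `α` when `ℓ ∣ N` -/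
def lowTransversal (hℓN : ℓ ∣ N) : Transversal (Gamma0 N) (Gamma0 (N * ℓ)) (ZMod ℓ) where
  A j := (mapGL ℝ ((lowRep N j : Gamma0 N) : SL(2, ℤ)) : GL (Fin 2) ℝ)
  isInt j := isIntMat_mapGL _
  σ := lowPerm hℓN
  c γ j := ⟨lowCoc hℓN γ j, lowCoc_mem hℓN γ j⟩
  rel γ j := by
    rw [← map_mul, ← map_mul]
    congr 1
    simp only [lowCoc, Subgroup.coe_mul, Subgroup.coe_inv, inv_mul_cancel_right]

theorem hF1_low (hℓN : ℓ ∣ N) (x : ZMod ℓ) (a : WH0 (Gamma0 N)) :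
    Hol.comp ((lowTransversal hℓN).A x) ((lowTransversal hℓN).isInt x).det_pos
      (WH0.toHol (Gamma0 (N * ℓ)) (alpha₀ N ℓ a)) = WH0.toHol (Gamma0 N) a := by
  apply Hol.ext
  intro z
  exact a.2.smul_eq _ (lowRep N x).2 z

variable {L : Type*} [Field L] [Algebra ℚ L] (e : L →+* ℂ)

theorem emb_low_jdBar (hℓN : ℓ ∣ N) (x : ZMod ℓ) :
    (lowTransversal hℓN).emb x (ΦBar (N * ℓ) e (jdBar (N * ℓ) (N * ℓ) dvd_rfl)) =
      algebraMap Hol Mer (Hol.slComp ((lowRep N x : Gamma0 N) : SL(2, ℤ)) (jN (N * ℓ))) := by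
  rw [ΦBar_jdBar, Transversal.emb_apply, toMer_algebraMap, merComp_algebraMap, toHol_jdWH0_self]
  rfl

theorem hinj_low (hℓN : ℓ ∣ N) :
    Function.Injective (fun x => ((lowTransversal hℓN).emb x).comp (ΦBar (N * ℓ) e)) := by
  intro x x' h
  have h1 := DFunLike.congr_fun h (jdBar (N * ℓ) (N * ℓ) dvd_rfl)
  simp only [RingHom.comp_apply] at h1
  rw [emb_low_jdBar, emb_low_jdBar] at h1
  have h2 := IsFractionRing.injective Hol Mer h1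
  have h3 := (slComp_inv_jN_eq_iff (N * ℓ) ((lowRep N x : Gamma0 N) : SL(2, ℤ))⁻¹
    ((lowRep N x' : Gamma0 N) : SL(2, ℤ))⁻¹).mp (by rw [inv_inv, inv_inv]; exact h2)
  rw [inv_inv, coe_lowRep, coe_lowRep, lowMat_inv, lowMat_mul, Gamma0_mem,
    lowMat_apply_one_zero, ZMod.intCast_zmod_eq_zero_iff_dvd] at h3
  -- `N ℓ ∣ N (x - x')`
  have hN0 : (N : ℤ) ≠ 0 := by exact_mod_cast NeZero.ne N
  have h4 : (ℓ : ℤ) ∣ (x.val : ℤ) - (x'.val : ℤ) := by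
    obtain ⟨t, ht⟩ := h3
    refine ⟨t, ?_⟩
    apply mul_left_cancel₀ hN0
    push_cast at ht
    linear_combination ht
  have h5 : ((x.val : ℤ) : ZMod ℓ) = ((x'.val : ℤ) : ZMod ℓ) := by
    rw [← sub_eq_zero, ← Int.cast_sub, ZMod.intCast_zmod_eq_zero_iff_dvd]
    exact h4
  push_cast at h5
  rwa [ZMod.natCast_zmod_val, ZMod.natCast_zmod_val] at h5

/-- **The analytic norm formula along `α`, `ℓ ∣ N`.** -/
theorem toMer_norm_alpha_dvd (hℓN : ℓ ∣ N) (y : FBar L (N * ℓ)) :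
    toMer (Gamma0 N) (ΦBar N e
      (@Algebra.norm (FBar L N) (FBar L (N * ℓ)) _ _
        (heckeAlphaBar L N ℓ).toRingHom.toAlgebra y)) =
      ∏ x : ZMod ℓ, (lowTransversal hℓN).emb x (ΦBar (N * ℓ) e y) :=
  (lowTransversal hℓN).toMer_norm_eq_prod e 0 (heckeAlphaBar L N ℓ) (alpha₀ N ℓ)
    (alphaAn N ℓ) (alphaAn_algebraMap N ℓ) (hF1_low hℓN) (alphaAn_ΦBar N ℓ e)
    (alphaAn_const N ℓ) (hinj_low e hℓN) y

end Fermat.Agent.S36lib.H
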